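import Mathlib

set_option autoImplicit false
set_option linter.unusedSectionVars false
set_option linter.style.haveILetI false

namespace Fermat.Agent.S57

open RingTheory.Sequence IsLocalRing Module
open CategoryTheory Abelian
open scoped Pointwise

section
variable {B : Type} [CommRing B] [IsLocalRing B] [IsNoetherianRing B]

theorem mem_maximalIdeal_of_isRegular {N : Type} [AddCommGroup N] [Module B N]
    {ys : List B} (reg : IsRegular N ys) : ∀ y ∈ ys, y ∈ maximalIdeal B := by
  intro y hy
  by_contra hu
  have hu' : IsUnit y := by simpa using hu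
  apply reg.2
  have : Ideal.ofList ys = ⊤ :=
    Ideal.eq_top_of_isUnit_mem _ (Ideal.subset_span hy) hu'
  rw [this, Submodule.top_smul]

theorem supportDim_span_smul_eq {N : Type} [AddCommGroup N] [Module B N]
    {y : B} (hy : IsSMulRegular N y) (v : N) :
    supportDim B (Submodule.span B {y • v}) = supportDim B (Submodule.span B {v}) := by
  have hinj : Function.Injective (LinearMap.lsmul B N y) := hy
  have h1 : Submodule.map (LinearMap.lsmul B N y) (Submodule.span B {v}) =
      Submodule.span B {y • v} := by
    rw [Submodule.map_span]; simp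
  rw [← h1]
  exact (supportDim_eq_of_equiv (Submodule.equivMapOfInjective _ hinj _)).symm

theorem range_quotSMulTop_map_subtype {N : Type} [AddCommGroup N] [Module B N]
    (y : B) (U : Submodule B N) :
    LinearMap.range (QuotSMulTop.map y U.subtype) =
      Submodule.map (Submodule.mkQ (y • (⊤ : Submodule B N))) U := by
  have h := QuotSMulTop.map_comp_mkQ y U.subtype
  have h2 : LinearMap.range (QuotSMulTop.map y U.subtype) =
      LinearMap.range (QuotSMulTop.map y U.subtype ∘ₗ Submodule.mkQ (y • (⊤ : Submodule B U))) := by
    rw [LinearMap.range_comp_of_range_eq_top _ (Submodule.range_mkQ _)]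
  rw [h2, h, LinearMap.range_comp, Submodule.range_subtype]

theorem succ_le_supportDim_span_of_notMem {N : Type} [AddCommGroup N] [Module B N]
    [Module.Finite B N] {y : B} (hy : IsSMulRegular N y) (hym : y ∈ maximalIdeal B)
    (n : ℕ) (v : N)
    (h : (n : WithBot ℕ∞) ≤ supportDim B
      (Submodule.span B {(Submodule.mkQ (y • (⊤ : Submodule B N)) v)})) :
    ((n + 1 : ℕ) : WithBot ℕ∞) ≤ supportDim B (Submodule.span B {v}) := by
  set U : Submodule B N := Submodule.span B {v} with hU
  have hregU : IsSMulRegular U y := hy.submodule U y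
  have hfin : Module.Finite B U := Module.Finite.span_singleton B v
  have hdim := supportDim_quotSMulTop_succ_eq_supportDim hregU hym
  rw [← hdim]
  have hrange := range_quotSMulTop_map_subtype y U
  rw [hU, Submodule.map_span, Set.image_singleton] at hrange
  have hsurj : supportDim B (Submodule.span B {(Submodule.mkQ (y • (⊤ : Submodule B N)) v)}) ≤
      supportDim B (QuotSMulTop y U) := by
    rw [← hrange]
    exact supportDim_le_of_surjective _ (LinearMap.surjective_rangeRestrict _)
  push_cast
  exact add_le_add (h.trans hsurj) le_rfl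

theorem length_le_supportDim_span_singleton (ys : List B) :
    ∀ {N : Type} [AddCommGroup N] [Module B N] [Module.Finite B N],
      IsRegular N ys → ∀ v : N, v ≠ 0 →
        (ys.length : WithBot ℕ∞) ≤ supportDim B (Submodule.span B {v}) := by
  induction ys with
  | nil =>
    intro N _ _ _ _ v hv
    have : Nontrivial (Submodule.span B {v}) :=
      ⟨⟨⟨v, Submodule.mem_span_singleton_self v⟩, 0, fun h => hv (congrArg Subtype.val h)⟩⟩
    have h := (supportDim_ne_bot_iff_nontrivial B (Submodule.span B {v})).mpr this
    simp only [List.length_nil, Nat.cast_zero]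
    rcases hd : supportDim B (Submodule.span B {v}) with _ | d
    · exact absurd hd h
    · exact WithBot.coe_le_coe.mpr zero_le
  | cons y ys ih =>
    intro N _ _ _ hreg v hv
    have hym : y ∈ maximalIdeal B := mem_maximalIdeal_of_isRegular hreg y (by simp)
    obtain ⟨hy, hreg'⟩ := (isRegular_cons_iff N y ys).mp hreg
    have hne : Ideal.span {y} ≠ ⊤ := by
      rw [Ne, Ideal.span_singleton_eq_top]
      exact hym
    have hkrull := Ideal.iInf_pow_smul_eq_bot_of_isLocalRing (M := N) (Ideal.span {y}) hne
    have aux : ∀ j : ℕ, ∀ v : N, v ≠ 0 → v ∉ (Ideal.span {y} ^ j • ⊤ : Submodule B N) →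
        (((y :: ys).length : ℕ) : WithBot ℕ∞) ≤ supportDim B (Submodule.span B {v}) := by
      intro j
      induction j with
      | zero =>
        intro v _ hv'
        simp at hv'
      | succ j ihj =>
        intro v hv hv'
        by_cases hmem : v ∈ (y • (⊤ : Submodule B N))
        · obtain ⟨v', -, rfl⟩ := (Submodule.mem_smul_pointwise_iff_exists _ _ _).mp hmem
          have hv'0 : v' ≠ 0 := by
            rintro rfl
            exact hv (smul_zero y)
          have hv'' : v' ∉ (Ideal.span {y} ^ j • ⊤ : Submodule B N) := by
            intro hc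
            apply hv'
            rw [pow_succ', mul_smul]
            rw [Submodule.ideal_span_singleton_smul]
            exact Submodule.smul_mem_pointwise_smul _ _ _ hc
          rw [supportDim_span_smul_eq hy]
          exact ihj v' hv'0 hv''
        · have hne0 : Submodule.mkQ (y • (⊤ : Submodule B N)) v ≠ 0 := by
            rw [Submodule.mkQ_apply, Ne, Submodule.Quotient.mk_eq_zero]
            exact hmem
          have := ih hreg' _ hne0
          exact succ_le_supportDim_span_of_notMem hy hym ys.length v this
    have : ∃ j : ℕ, v ∉ (Ideal.span {y} ^ j • ⊤ : Submodule B N) := by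
      by_contra hcon
      simp only [not_exists, not_not] at hcon
      have : v ∈ (⨅ i : ℕ, (Ideal.span {y} ^ i • ⊤ : Submodule B N)) := by
        rw [Submodule.mem_iInf]; exact hcon
      rw [hkrull] at this
      exact hv ((Submodule.mem_bot B).mp this)
    obtain ⟨j, hj⟩ := this
    exact aux j v hv hj

theorem maximalIdeal_smul_top_lt_top (N : Type) [AddCommGroup N] [Module B N] [Module.Finite B N]
    [Nontrivial N] : (maximalIdeal B) • (⊤ : Submodule B N) < ⊤ :=
  (Submodule.top_ne_ideal_smul_of_le_jacobson_annihilator
    (maximalIdeal_le_jacobson _)).symm.lt_top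

theorem exists_isRegular_quotSMulTop {N : Type} [AddCommGroup N] [Module B N] [Module.Finite B N]
    (n : ℕ) (ys : List B) (hys : IsRegular N ys) (hlen : ys.length = n + 1)
    (hmem : ∀ y ∈ ys, y ∈ maximalIdeal B)
    (x : B) (hx : x ∈ maximalIdeal B) (hreg : IsSMulRegular N x) :
    ∃ zs : List B, zs.length = n ∧ (∀ z ∈ zs, z ∈ maximalIdeal B) ∧
      IsRegular (QuotSMulTop x N) zs := by
  have hnt : Nontrivial N := hys.nontrivial
  have hnt' : Nontrivial (QuotSMulTop x N) := nontrivial_quotSMulTop_of_mem_maximalIdeal N hx
  let K : ModuleCat.{0} B := ModuleCat.of B (B ⧸ maximalIdeal B)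
  have hKfin : Module.Finite B K := inferInstanceAs (Module.Finite B (B ⧸ maximalIdeal B))
  have hsupp : Module.support B K = PrimeSpectrum.zeroLocus (maximalIdeal B : Set B) := by
    change Module.support B (B ⧸ maximalIdeal B) = _
    rw [Module.support_eq_zeroLocus, Ideal.annihilator_quotient]
  have h_ext : ∀ i < n + 1, Subsingleton (Ext K (ModuleCat.of B N) i) := by
    have := ModuleCat.subsingleton_ext_of_exists_isRegular (maximalIdeal B) K hsupp.subset
      (ModuleCat.of B N) (maximalIdeal_smul_top_lt_top N) ys hmem hys
    rwa [hlen] at this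
  have h_ext' : ∀ i < n, Subsingleton (Ext K (ModuleCat.of B (QuotSMulTop x N)) i) := by
    intro i hi
    have zero1 := AddCommGrpCat.isZero_of_iff_subsingleton.mpr (h_ext i (by omega))
    have zero2 := AddCommGrpCat.isZero_of_iff_subsingleton.mpr (h_ext (i + 1) (by omega))
    exact AddCommGrpCat.subsingleton_of_isZero <| ShortComplex.Exact.isZero_of_both_zeros
      ((Ext.covariant_sequence_exact₃' K
        (IsSMulRegular.smulShortComplex_shortExact (M := ModuleCat.of B N) hreg)) i (i + 1) rfl)
      (zero1.eq_zero_of_src _) (zero2.eq_zero_of_tgt _)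
  exact ModuleCat.exists_isRegular_of_exists_subsingleton_ext (maximalIdeal B) n
    (ModuleCat.of B (QuotSMulTop x N)) (maximalIdeal_smul_top_lt_top (QuotSMulTop x N)) K hsupp h_ext'

theorem spanFinrank_ofList_le (xs : List B) :
    (Ideal.ofList xs).spanFinrank ≤ xs.length := by
  classical
  have hfin : ({r | r ∈ xs} : Set B).Finite := List.finite_toSet xs
  refine (Submodule.spanFinrank_span_le_ncard_of_finite hfin).trans ?_
  have : ({r | r ∈ xs} : Set B) = (xs.toFinset : Set B) := by ext; simp
  rw [this, Set.ncard_coe_finset]
  exact List.toFinset_card_le xs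

theorem ringKrullDim_le_length_of_ofList_eq (xs : List B)
    (h : Ideal.ofList xs = maximalIdeal B) : ringKrullDim B ≤ (xs.length : WithBot ℕ∞) := by
  refine (ringKrullDim_le_spanFinrank_maximalIdeal B).trans ?_
  rw [← h]
  exact_mod_cast spanFinrank_ofList_le xs

theorem supportDim_span_le_of_smul_eq_zero {N : Type} [AddCommGroup N] [Module B N]
    (x : B) (v : N) (hxv : x • v = 0) :
    supportDim B (Submodule.span B {v}) ≤ ringKrullDim (B ⧸ Ideal.span {x}) := by
  have hfin : Module.Finite B (Submodule.span B {v}) := Module.Finite.span_singleton B v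
  rw [supportDim_eq_ringKrullDim_quotient_annihilator]
  have hle : Ideal.span {x} ≤ Module.annihilator B (Submodule.span B {v}) := by
    rw [Ideal.span_le, Set.singleton_subset_iff]
    refine Module.mem_annihilator.mpr ?_
    rintro ⟨w, hw⟩
    obtain ⟨a, rfl⟩ := Submodule.mem_span_singleton.mp hw
    ext
    simp [smul_comm x a v, hxv]
  exact ringKrullDim_le_of_surjective (Ideal.Quotient.factor hle)
    (Ideal.Quotient.factor_surjective hle)

theorem isSMulRegular_of_isRegular_of_length {N : Type} [AddCommGroup N] [Module B N]
    [Module.Finite B N] (x : B) (m : ℕ)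
    (hdim : ringKrullDim (B ⧸ Ideal.span {x}) ≤ (m : WithBot ℕ∞))
    (ys : List B) (hys : IsRegular N ys) (hlen : m + 1 ≤ ys.length) :
    IsSMulRegular N x := by
  rw [isSMulRegular_iff_right_eq_zero_of_smul]
  intro v hxv
  by_contra hv
  have h1 := length_le_supportDim_span_singleton ys hys v hv
  have h2 := supportDim_span_le_of_smul_eq_zero x v hxv
  have h3 : ((m + 1 : ℕ) : WithBot ℕ∞) ≤ (m : WithBot ℕ∞) :=
    (by exact_mod_cast hlen : ((m + 1 : ℕ) : WithBot ℕ∞) ≤ (ys.length : WithBot ℕ∞)).trans
      (h1.trans (h2.trans hdim))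
  have : (m + 1 : ℕ) ≤ m := by exact_mod_cast h3
  omega

end

theorem free_of_isRegular_aux (m : ℕ) :
    ∀ (B : Type) [CommRing B] [IsLocalRing B] [IsNoetherianRing B] (xs : List B),
      xs.length = m → Ideal.ofList xs = maximalIdeal B →
      ∀ (N : Type) [AddCommGroup N] [Module B N] [Module.Finite B N] (ys : List B),
        IsRegular N ys → m ≤ ys.length → Module.Free B N := by
  induction m with
  | zero =>
    intro B _ _ _ xs hlen hxs N _ _ _ ys _ _
    have hnil : xs = [] := List.length_eq_zero_iff.mp hlen
    subst hnil
    rw [Ideal.ofList_nil] at hxs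
    have hfield : IsField B := (IsLocalRing.isField_iff_maximalIdeal_eq).mpr hxs.symm
    letI := hfield.toField
    exact Module.Free.of_divisionRing B N
  | succ m ih =>
    intro B _ _ _ xs hlen hxs N _ _ _ ys hys hle
    match xs, hlen with
    | x :: xs', hlen =>
      have hlen' : xs'.length = m := by simpa using hlen
      have hxm : x ∈ maximalIdeal B := by
        rw [← hxs]; exact Ideal.subset_span (by simp)
      have hne : Ideal.span {x} ≠ ⊤ := by
        rw [Ne, Ideal.span_singleton_eq_top]; exact hxm
      haveI : Nontrivial (B ⧸ Ideal.span {x}) := Ideal.Quotient.nontrivial_iff.mpr hne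
      haveI : IsLocalRing (B ⧸ Ideal.span {x}) :=
        IsLocalRing.of_surjective' (Ideal.Quotient.mk _) Ideal.Quotient.mk_surjective
      have hmax' : Ideal.ofList (xs'.map (Ideal.Quotient.mk (Ideal.span {x}))) =
          maximalIdeal (B ⧸ Ideal.span {x}) := by
        rw [← IsLocalRing.map_maximalIdeal_of_surjective (Ideal.Quotient.mk (Ideal.span {x}))
          Ideal.Quotient.mk_surjective, ← hxs, Ideal.map_ofList, List.map_cons, Ideal.ofList_cons]
        have : Ideal.span {(Ideal.Quotient.mk (Ideal.span {x})) x} = ⊥ := by
          rw [Ideal.span_singleton_eq_bot, Ideal.Quotient.eq_zero_iff_mem]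
          exact Ideal.mem_span_singleton_self x
        rw [this, bot_sup_eq]
      have hdim : ringKrullDim (B ⧸ Ideal.span {x}) ≤ (m : WithBot ℕ∞) := by
        have := ringKrullDim_le_length_of_ofList_eq _ hmax'
        simpa [hlen'] using this
      have hregx : IsSMulRegular N x :=
        isSMulRegular_of_isRegular_of_length x m hdim ys hys hle
      obtain ⟨n, hn⟩ : ∃ n, ys.length = n + 1 := ⟨ys.length - 1, by omega⟩
      obtain ⟨zs, hzlen, -, hzs⟩ := exists_isRegular_quotSMulTop n ys hys hn
        (mem_maximalIdeal_of_isRegular hys) x hxm hregx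
      have hcons : IsRegular N (x :: zs) := (isRegular_cons_iff N x zs).mpr ⟨hregx, hzs⟩
      have hzs' := ((isRegular_cons_iff' N x zs).mp hcons).2
      haveI : Module.Finite (B ⧸ Ideal.span {x}) (QuotSMulTop x N) :=
        Module.Finite.of_restrictScalars_finite B (B ⧸ Ideal.span {x}) (QuotSMulTop x N)
      have hfree' : Module.Free (B ⧸ Ideal.span {x}) (QuotSMulTop x N) :=
        ih (B ⧸ Ideal.span {x}) (xs'.map (Ideal.Quotient.mk (Ideal.span {x})))
          (by simpa using hlen') hmax' (QuotSMulTop x N)
          (zs.map (Ideal.Quotient.mk (Ideal.span {x}))) hzs' (by simp; omega)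
      haveI : Module.FinitePresentation B N := Module.finitePresentation_of_finite B N
      have hjac : x ∈ (⊥ : Ideal B).jacobson := by
        rw [IsLocalRing.jacobson_eq_maximalIdeal ⊥ bot_ne_top]; exact hxm
      exact (Module.free_quotSMulTop_iff_free B N hjac hregx).mp hfree'

/-- A finite module over a Noetherian local ring whose maximal ideal is generated by `n`
elements, admitting a regular sequence of length at least `n`, is free. -/
theorem free_of_isRegular_of_ofList_eq_maximalIdeal
    {B : Type} [CommRing B] [IsLocalRing B] [IsNoetherianRing B] (xs : List B)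
    (hxs : Ideal.ofList xs = maximalIdeal B)
    {N : Type} [AddCommGroup N] [Module B N] [Module.Finite B N] (ys : List B)
    (hys : IsRegular N ys) (hle : xs.length ≤ ys.length) : Module.Free B N :=
  free_of_isRegular_aux xs.length B xs rfl hxs N ys hys hle

end Fermat.Agent.S57
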