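import Mathlib

set_option autoImplicit false
set_option linter.unusedSectionVars false
set_option linter.style.haveILetI false

namespace Fermat.Agent.S57

open Module

theorem repr_mem_of_mem_smul_top {S : Type} [CommRing S] {N : Type} [AddCommGroup N] [Module S N]
    {ι : Type} (e : Basis ι S N) (𝔞 : Ideal S) {x : N}
    (hx : x ∈ 𝔞 • (⊤ : Submodule S N)) (i : ι) : e.repr x i ∈ 𝔞 := by
  rw [← e.span_eq, Submodule.mem_ideal_smul_span_iff_exists_sum] at hx
  obtain ⟨a, ha, rfl⟩ := hx
  have : e.repr (a.sum fun i c => c • e i) = a := by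
    have := e.repr_linearCombination a
    rwa [Finsupp.linearCombination_apply] at this
  rw [this]
  exact ha i

theorem free_and_ker_of_free {S R : Type} [CommRing S] [CommRing R]
    {N M : Type} [AddCommGroup N] [Module S N] [AddCommGroup M] [Module R M] [Nontrivial M]
    [Module.Free S N] [Module.Finite S N]
    (ψ : S →+* R) (hψ : Function.Surjective ψ) (𝔞 : Ideal S) (h𝔞 : 𝔞 ≤ RingHom.ker ψ)
    (π : N →+ M) (hπsmul : ∀ (f : S) (x : N), π (f • x) = ψ f • π x)
    (hπsurj : Function.Surjective π)
    (hker : ∀ x : N, π x = 0 ↔ x ∈ 𝔞 • (⊤ : Submodule S N)) :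
    Module.Free R M ∧ Module.annihilator R M = ⊥ ∧ RingHom.ker ψ = 𝔞 := by
  classical
  let ι := Module.Free.ChooseBasisIndex S N
  let e : Basis ι S N := Module.Free.chooseBasis S N
  haveI : Fintype ι := Module.Free.ChooseBasisIndex.fintype S N
  have hsum : ∀ s : ι → S, π (∑ i, s i • e i) = ∑ i, ψ (s i) • π (e i) := by
    intro s
    rw [map_sum]
    exact Finset.sum_congr rfl fun i _ => hπsmul _ _
  have hli : LinearIndependent R (fun i => π (e i)) := by
    rw [Fintype.linearIndependent_iff]
    intro g hg i
    choose s hs using fun i => hψ (g i)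
    have h0 : π (∑ i, s i • e i) = 0 := by
      rw [hsum]
      simpa [hs] using hg
    have hmem := (hker _).mp h0
    have hrepr := repr_mem_of_mem_smul_top e 𝔞 hmem i
    have : e.repr (∑ i, s i • e i) i = s i := by
      simp [map_sum, Finsupp.single_apply]
    rw [this] at hrepr
    rw [← hs i]
    exact h𝔞 hrepr
  have hspan : ⊤ ≤ Submodule.span R (Set.range fun i => π (e i)) := by
    intro m _
    obtain ⟨x, rfl⟩ := hπsurj m
    have hx : x = ∑ i, e.repr x i • e i := (e.sum_repr x).symm
    rw [hx, hsum]
    exact Submodule.sum_mem _ fun i _ =>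
      Submodule.smul_mem _ _ (Submodule.subset_span ⟨i, rfl⟩)
  let bM : Basis ι R M := Basis.mk hli hspan
  have hfree : Module.Free R M := Module.Free.of_basis bM
  have hne : Nonempty ι := by
    by_contra hemp
    rw [not_nonempty_iff] at hemp
    have : Subsingleton M := by
      refine ⟨fun a b => ?_⟩
      have ha := bM.sum_repr a
      have hb := bM.sum_repr b
      simp at ha hb
      rw [← ha, ← hb]
    exact not_subsingleton M this
  obtain ⟨i₀⟩ := hne
  refine ⟨hfree, ?_, ?_⟩
  · rw [eq_bot_iff]
    intro a ha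
    rw [Submodule.mem_bot]
    have h1 := (Module.mem_annihilator.mp ha) (π (e i₀))
    have := Fintype.linearIndependent_iff.mp hli (fun i => if i = i₀ then a else 0)
      (by simpa using h1) i₀
    simpa using this
  · apply le_antisymm _ h𝔞
    intro s hs
    have h0 : π (s • e i₀) = 0 := by
      rw [hπsmul, RingHom.mem_ker.mp hs, zero_smul]
    have hmem := (hker _).mp h0
    have hrepr := repr_mem_of_mem_smul_top e 𝔞 hmem i₀
    simpa using hrepr

end Fermat.Agent.S57
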