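import Mathlib

set_option autoImplicit false
set_option linter.unusedSectionVars false

namespace Fermat.Agent.S57

open RingTheory.Sequence IsLocalRing Module
open scoped Pointwise

/-- the maximal ideal is generated by a regular sequence of length `n`. -/
def RegGen (B : Type) [CommRing B] [IsLocalRing B] (n : ℕ) : Prop :=
  ∃ xs : List B, xs.length = n ∧ IsRegular B xs ∧ Ideal.ofList xs = maximalIdeal B

theorem RegGen.of_ringEquiv {A A' : Type} [CommRing A] [CommRing A'] [IsLocalRing A]
    [IsLocalRing A'] (e : A ≃+* A') {n : ℕ} (h : RegGen A n) : RegGen A' n := by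
  obtain ⟨xs, hlen, hreg, hgen⟩ := h
  refine ⟨xs.map e, by simpa using hlen, ?_, ?_⟩
  · have hF : List.Forall₂ (fun (r : A) (s : A') => ∀ x : A, e.toAddEquiv (r • x) = s • e.toAddEquiv x)
        xs (xs.map e) := by
      refine List.forall₂_map_right_iff.mpr (List.forall₂_same.mpr fun r _ x => ?_)
      simp
    exact (AddEquiv.isRegular_congr hF).mp hreg
  · have := Ideal.map_ofList (e : A →+* A') xs
    rw [hgen, map_maximalIdeal_of_surjective (e : A →+* A') e.surjective] at this
    rw [this]
    rfl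

section PS
variable (A : Type) [CommRing A]

theorem smul_top_toAddSubgroup_eq_ker :
    ((PowerSeries.X : PowerSeries A) • (⊤ : Submodule (PowerSeries A) (PowerSeries A))).toAddSubgroup =
      AddMonoidHom.ker ((PowerSeries.constantCoeff (R := A)).toAddMonoidHom) := by
  ext f
  simp only [Submodule.mem_toAddSubgroup, AddMonoidHom.mem_ker, RingHom.toAddMonoidHom_eq_coe,
    AddMonoidHom.coe_coe]
  rw [← PowerSeries.X_dvd_iff, Submodule.mem_smul_pointwise_iff_exists]
  constructor
  · rintro ⟨g, -, rfl⟩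
    exact ⟨g, rfl⟩
  · rintro ⟨g, rfl⟩
    exact ⟨g, trivial, rfl⟩

noncomputable def quotXAddEquiv :
    QuotSMulTop (PowerSeries.X : PowerSeries A) (PowerSeries A) ≃+ A :=
  (QuotientAddGroup.quotientAddEquivOfEq (smul_top_toAddSubgroup_eq_ker A)).trans
    (QuotientAddGroup.quotientKerEquivOfSurjective
      ((PowerSeries.constantCoeff (R := A)).toAddMonoidHom) PowerSeries.constantCoeff_surj)

theorem quotXAddEquiv_mk (f : PowerSeries A) :
    quotXAddEquiv A (Submodule.Quotient.mk f) = PowerSeries.constantCoeff f := rfl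

theorem quotXAddEquiv_smul (a : A) (q : QuotSMulTop (PowerSeries.X : PowerSeries A) (PowerSeries A)) :
    quotXAddEquiv A (PowerSeries.C a • q) = a • quotXAddEquiv A q := by
  obtain ⟨f, rfl⟩ := Submodule.Quotient.mk_surjective _ q
  rw [← Submodule.Quotient.mk_smul, quotXAddEquiv_mk, quotXAddEquiv_mk]
  simp

end PS

theorem RegGen.powerSeries {A : Type} [CommRing A] [IsLocalRing A] {n : ℕ} (h : RegGen A n) :
    RegGen (PowerSeries A) (n + 1) := by
  obtain ⟨xs, hlen, hreg, hgen⟩ := h
  refine ⟨PowerSeries.X :: xs.map PowerSeries.C, by simpa using hlen, ?_, ?_⟩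
  · rw [isRegular_cons_iff]
    refine ⟨?_, ?_⟩
    · intro f g hfg
      exact PowerSeries.X_mul_cancel hfg
    · have hF : List.Forall₂ (fun (r : PowerSeries A) (s : A) =>
          ∀ q, quotXAddEquiv A (r • q) = s • quotXAddEquiv A q) (xs.map PowerSeries.C) xs := by
        refine List.forall₂_map_left_iff.mpr (List.forall₂_same.mpr fun a _ q => ?_)
        exact quotXAddEquiv_smul A a q
      exact (AddEquiv.isRegular_congr hF).mpr hreg
  · have hX : (PowerSeries.X : PowerSeries A) ∈ maximalIdeal (PowerSeries A) := by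
      rw [mem_maximalIdeal, mem_nonunits_iff, PowerSeries.isUnit_iff_constantCoeff]
      simp
    have hmap : Ideal.span {a | a ∈ xs} =
        (maximalIdeal (PowerSeries A)).map (PowerSeries.constantCoeff (R := A)) := by
      rw [map_maximalIdeal_of_surjective _ PowerSeries.constantCoeff_surj]
      exact hgen
    have := PowerSeries.eq_span_insert_X_of_X_mem_of_span_eq hX hmap
    rw [this]
    have hset : {r | r ∈ PowerSeries.X :: xs.map (PowerSeries.C (R := A))} =
        insert (PowerSeries.X : PowerSeries A) ((PowerSeries.C (R := A)) '' {a | a ∈ xs}) := by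
      ext f
      simp
    show Ideal.span {r | r ∈ PowerSeries.X :: xs.map (PowerSeries.C (R := A))} = _
    rw [hset]

theorem RegGen.of_dvr (𝒪 : Type) [CommRing 𝒪] [IsDomain 𝒪] [IsDiscreteValuationRing 𝒪] :
    RegGen 𝒪 1 := by
  obtain ⟨ϖ, hϖ⟩ := IsDiscreteValuationRing.exists_irreducible 𝒪
  refine ⟨[ϖ], rfl, ?_, ?_⟩
  · have hmem : ∀ r ∈ [ϖ], r ∈ maximalIdeal 𝒪 := by
      intro r hr
      simp only [List.mem_singleton] at hr
      subst hr
      rw [mem_maximalIdeal]; exact hϖ.not_isUnit
    refine IsRegular.of_isWeaklyRegular_of_mem_maximalIdeal 𝒪 hmem ?_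
    rw [isWeaklyRegular_singleton_iff]
    exact (IsRegular.of_ne_zero hϖ.ne_zero).isSMulRegular
  · rw [Ideal.ofList_singleton, hϖ.maximalIdeal_eq]

theorem RegGen.mvPowerSeries (A : Type) [CommRing A] [IsLocalRing A] {n : ℕ} (h : RegGen A n)
    (r : ℕ) : RegGen (MvPowerSeries (Fin r) A) (n + r) := by
  induction r with
  | zero =>
    exact RegGen.of_ringEquiv (MvPowerSeries.isEmptyEquiv (Fin 0) A).symm.toRingEquiv h
  | succ r ih =>
    have := RegGen.powerSeries ih
    exact RegGen.of_ringEquiv (MvPowerSeries.finSuccEquiv A r).symm.toRingEquiv this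

theorem regGen_mvPowerSeries_dvr (𝒪 : Type) [CommRing 𝒪] [IsDomain 𝒪]
    [IsDiscreteValuationRing 𝒪] (r : ℕ) : RegGen (MvPowerSeries (Fin r) 𝒪) (1 + r) :=
  RegGen.mvPowerSeries 𝒪 (RegGen.of_dvr 𝒪) r

end Fermat.Agent.S57
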